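import Fermat.Agent.S14.KummerLocal.Defs
import Fermat.Agent.S14.KummerPlaces

set_option autoImplicit false
set_option linter.unusedSectionVars false

namespace Fermat.Agent.S14

open IsDedekindDomain NumberField Finset

/-- strict ultrametric inequality for a difference. -/
lemma kr_lt_ord_sub {F : Type*} [Field F] [NumberField F] (v : Pl F) {x y : F} {a : ℤ}
    (hx : x ≠ 0) (hy : y ≠ 0) (hxy : x - y ≠ 0) (h1 : a < ord v x) (h2 : a < ord v y) :
    a < ord v (x - y) := by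
  have h := min_le_ord_add v hx (neg_ne_zero.2 hy) (by rwa [← sub_eq_add_neg])
  rw [ord_neg, ← sub_eq_add_neg] at h
  exact lt_of_lt_of_le (lt_min h1 h2) h

/-- weak ultrametric inequality for a difference. -/
lemma kr_le_ord_sub {F : Type*} [Field F] [NumberField F] (v : Pl F) {x y : F} {a : ℤ}
    (hx : x ≠ 0) (hy : y ≠ 0) (hxy : x - y ≠ 0) (h1 : a ≤ ord v x) (h2 : a ≤ ord v y) :
    a ≤ ord v (x - y) := by
  have h := min_le_ord_add v hx (neg_ne_zero.2 hy) (by rwa [← sub_eq_add_neg])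
  rw [ord_neg, ← sub_eq_add_neg] at h
  exact le_trans (le_min h1 h2) h

variable {p : ℕ} [Fact p.Prime] {K M : Type*} [Field K] [NumberField K] [Field M] [NumberField M]
  [Algebra K M] {ζ y : K} {B : M} {τ : M ≃ₐ[K] M}

namespace IsKummer

lemma kr_zeta_ne_one (h : IsKummer p ζ y B τ) : ζ ≠ 1 :=
  h.prim.ne_one (Fact.out : p.Prime).one_lt

/-- `ord_w (ζ - 1) = e d`. -/
lemma kr_ord_map_zeta_sub_one (h : IsKummer p ζ y B τ) (w : Pl M) :
    ord w (algebraMap K M ζ - 1) = ram K w * (dz ζ (below K w) : ℤ) := by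
  have : algebraMap K M ζ - 1 = algebraMap K M (ζ - 1) := by simp
  rw [this, ord_algebraMap, dz_eq h.prim]

lemma kr_ord_map_zeta (h : IsKummer p ζ y B τ) (w : Pl M) : ord w (algebraMap K M ζ) = 0 := by
  rw [ord_algebraMap, ord_zeta h.prim]; simp

lemma kr_map_zeta_ne_zero (h : IsKummer p ζ y B τ) : algebraMap K M ζ ≠ 0 := by
  have := h.prim.ne_zero (Fact.out : p.Prime).ne_zero
  simpa using this

lemma kr_ord_map_zeta_pow (h : IsKummer p ζ y B τ) (w : Pl M) (i : ℕ) :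
    ord w (algebraMap K M ζ ^ i) = 0 := by
  rw [ord_pow, h.kr_ord_map_zeta]; simp

/-- **KR1**.
Proof.  `v = below w`, `e = ram w`, `d = dz ζ v`, `D = ord_w (ζ - 1) = e d`.  `SplitAt` gives
`c₀ ≠ 0` with `ord_v (y' - 1) ≥ p d + 1`, `y' = y / c₀ ^ p`; put `B' = B / c₀` (`IsKummer.scale`).
`∏_{i<p} (B' - ζ^i) = y' - 1` (`prod_B_sub`, `c = 1`; all factors are `≠ 0` by `B_ne_algebraMap`)
so `∑ ord_w (B' - ζ^i) = e ord_v (y' - 1) > p D`, hence `ord_w (B' - ζ^i) > D` for some `i`.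
If `tauPl τ w = w` then `ord_w (τ x) = ord_w x`; `τ (B' - ζ^i) = ζ (B' - ζ^(i-1))` so also
`ord_w (B' - ζ^(i-1)) > D`; the difference `ζ^i - ζ^(i-1)` has `ord_w = D`
(`ord_zeta_pow_sub_zeta_pow` in `M`): contradiction with the ultrametric inequality. -/
theorem tauPl_ne_of_splitAt (h : IsKummer p ζ y B τ) (w : Pl M)
    (hs : SplitAt p ζ y (below K w)) : tauPl K τ w ≠ w := by
  intro hw
  obtain ⟨c₀, hc₀, hval⟩ := hs
  have h' := h.scale hc₀
  set y' := y / c₀ ^ p with hy'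
  set B' := B / algebraMap K M c₀ with hB'
  set z := algebraMap K M ζ with hz
  have hprod := h'.prod_B_sub 1
  have hfac : ∀ i ∈ range p, B' - algebraMap K M (ζ ^ i * 1) ≠ 0 := fun i _ =>
    sub_ne_zero.2 (h'.B_ne_algebraMap _)
  have hne : algebraMap K M (y' - 1 ^ p) ≠ 0 := by
    rw [← hprod]; exact Finset.prod_ne_zero_iff.2 hfac
  have hne' : y' - 1 ≠ 0 := by
    intro h0; apply hne; rw [one_pow, h0, map_zero]
  have hord : ((p * dz ζ (below K w) + 1 : ℕ) : ℤ) ≤ ord (below K w) (y' - 1) :=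
    (le_ord_iff_valuation_le _ hne' _).2 hval
  have hsum : ∑ i ∈ range p, ord w (B' - algebraMap K M (ζ ^ i * 1))
      = ram K w * ord (below K w) (y' - 1) := by
    rw [← ord_prod w _ _ hfac, hprod, one_pow, ord_algebraMap]
  have he : (0 : ℤ) < ram K w := by exact_mod_cast ram_pos (K := K) w
  set D : ℤ := ram K w * (dz ζ (below K w) : ℤ) with hD
  have hex : ∃ i ∈ range p, D < ord w (B' - algebraMap K M (ζ ^ i * 1)) := by
    by_contra hcon
    push Not at hcon
    have hle : ∑ i ∈ range p, ord w (B' - algebraMap K M (ζ ^ i * 1)) ≤ ∑ _i ∈ range p, D :=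
      Finset.sum_le_sum hcon
    rw [hsum, Finset.sum_const, card_range, nsmul_eq_mul] at hle
    have h1 : (ram K w : ℤ) * ((p * dz ζ (below K w) + 1 : ℕ) : ℤ)
        ≤ ram K w * ord (below K w) (y' - 1) := mul_le_mul_of_nonneg_left hord he.le
    push_cast at h1
    nlinarith
  obtain ⟨i, -, hi⟩ := hex
  set X := B' - algebraMap K M (ζ ^ i * 1) with hX
  have hX0 : X ≠ 0 := sub_ne_zero.2 (h'.B_ne_algebraMap _)
  have hτX : τ X = z * B' - z ^ i := by
    rw [hX, map_sub, h'.tau_B, AlgEquiv.commutes]; simp [hz]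
  have hz0 : z ≠ 0 := h.kr_map_zeta_ne_zero
  have hdiff : z * X - τ X = - (z ^ i * (z - 1)) := by
    rw [hτX, hX]; simp only [mul_one, map_pow]; ring
  have hz1 : z - 1 ≠ 0 := by
    rw [hz, sub_ne_zero]
    intro h1
    exact h.kr_zeta_ne_one ((algebraMap K M).injective (by simpa using h1))
  have hne2 : z * X - τ X ≠ 0 := by
    rw [hdiff]; exact neg_ne_zero.2 (mul_ne_zero (pow_ne_zero _ hz0) hz1)
  have h1 : D < ord w (z * X) := by
    rw [ord_mul w hz0 hX0, h.kr_ord_map_zeta]; simpa using hi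
  have h2 : D < ord w (τ X) := by
    rw [ord_apply_of_tauPl_eq hw]; exact hi
  have hτX0 : τ X ≠ 0 := by simpa using hX0
  have h3 := kr_lt_ord_sub w (mul_ne_zero hz0 hX0) hτX0 hne2 h1 h2
  rw [hdiff, ord_neg, ord_mul w (pow_ne_zero _ hz0) hz1, h.kr_ord_map_zeta_pow,
    h.kr_ord_map_zeta_sub_one] at h3
  simp [hD] at h3

end IsKummer

end Fermat.Agent.S14
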