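import Fermat.Agent.S14.KummerLocal.Defs
import Fermat.Agent.S14.KummerPlaces
import Fermat.Agent.S14.KummerLocal.KR1

set_option autoImplicit false
set_option linter.unusedSectionVars false

namespace Fermat.Agent.S14

open IsDedekindDomain NumberField Finset

lemma kr_lt_exp_iff (x : WithZero (Multiplicative ℤ)) (n : ℤ) :
    x < WithZero.exp n ↔ x ≤ WithZero.exp (n - 1) := by
  rcases eq_or_ne x 0 with rfl | hx
  · simp [zero_lt_iff]
  · rw [← WithZero.log_lt_iff_lt_exp hx, ← WithZero.log_le_iff_le_exp hx]; omega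

lemma kr_exp_pow (a : ℤ) (n : ℕ) :
    (WithZero.exp a : WithZero (Multiplicative ℤ)) ^ n = WithZero.exp ((n : ℤ) * a) := by
  rw [← WithZero.exp_nsmul]; simp

/-- a product with all factors `≤ b` and one factor `< b` is `< b ^ card`. -/
lemma kr_prod_lt_pow {ι : Type*} (s : Finset ι) (f : ι → WithZero (Multiplicative ℤ))
    {b : WithZero (Multiplicative ℤ)} (hb : 0 < b) (hle : ∀ i ∈ s, f i ≤ b) {i₀ : ι}
    (hi₀ : i₀ ∈ s) (hlt : f i₀ < b) : ∏ i ∈ s, f i < b ^ s.card := by
  classical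
  rw [← Finset.mul_prod_erase s f hi₀, ← Finset.card_erase_add_one hi₀, pow_succ']
  have h1 : ∏ i ∈ s.erase i₀, f i ≤ b ^ (s.erase i₀).card :=
    Finset.prod_le_pow_card _ _ _ fun i hi => hle i (Finset.mem_of_mem_erase hi)
  calc f i₀ * ∏ i ∈ s.erase i₀, f i ≤ f i₀ * b ^ (s.erase i₀).card := by gcongr
    _ < b * b ^ (s.erase i₀).card := by
        exact mul_lt_mul_of_pos_right hlt (pow_pos hb _)

variable {p : ℕ} [Fact p.Prime] {K M : Type*} [Field K] [NumberField K] [Field M] [NumberField M]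
  [Algebra K M] {ζ y : K} {B : M} {τ : M ≃ₐ[K] M}

namespace IsKummer

lemma kr_map_zeta_sub_one_ne_zero (h : IsKummer p ζ y B τ) : algebraMap K M ζ - 1 ≠ 0 := by
  rw [sub_ne_zero]
  intro h1
  exact h.kr_zeta_ne_one ((algebraMap K M).injective (by simpa using h1))

lemma kr_val_map_zeta_sub_one (h : IsKummer p ζ y B τ) (w : Pl M) :
    w.valuation M (algebraMap K M ζ - 1)
      = WithZero.exp (-((ram K w : ℤ) * (dz ζ (below K w) : ℤ))) := by
  rw [valuation_eq_exp_neg_ord w h.kr_map_zeta_sub_one_ne_zero, h.kr_ord_map_zeta_sub_one]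

lemma kr_val_map_zeta (h : IsKummer p ζ y B τ) (w : Pl M) :
    w.valuation M (algebraMap K M ζ) = 1 :=
  Approx.valuation_eq_one_of_ord w h.kr_map_zeta_ne_zero (h.kr_ord_map_zeta w)

lemma kr_val_map_zeta_pow_sub_one_le (h : IsKummer p ζ y B τ) (w : Pl M) (i : ℕ) :
    w.valuation M (algebraMap K M ζ ^ i - 1) ≤ w.valuation M (algebraMap K M ζ - 1) := by
  rw [← geom_sum_mul, map_mul]
  have h1 : w.valuation M (∑ j ∈ range i, algebraMap K M ζ ^ j) ≤ 1 := by
    apply Valuation.map_sum_le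
    intro j _
    rw [map_pow, h.kr_val_map_zeta]; simp
  exact mul_le_of_le_one_left' h1

/-- step (0): normalisation of `y`. -/
lemma kr_exists_normalise (h : IsKummer p ζ y B τ) (v : Pl K) (hu : UnramAt p ζ y v) :
    ∃ c₀ : K, c₀ ≠ 0 ∧ v.valuation K (y / c₀ ^ p) = 1 ∧
      v.valuation K (y / c₀ ^ p - 1) ≤ WithZero.exp (-((p * dz ζ v : ℕ) : ℤ)) := by
  obtain ⟨hdvd, c₀, hc₀, hval⟩ := hu
  have hy0 : y ≠ 0 := h.y_ne_zero
  rcases Nat.eq_zero_or_pos (dz ζ v) with hd | hd
  · obtain ⟨k, hk⟩ := hdvd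
    obtain ⟨c, hc, hcv⟩ := exists_ord_eq {v} (fun _ => k)
    have hcv' : ord v c = k := hcv v (by simp)
    have hne : y / c ^ p ≠ 0 := div_ne_zero hy0 (pow_ne_zero _ hc)
    have h1 : v.valuation K (y / c ^ p) = 1 := by
      apply Approx.valuation_eq_one_of_ord v hne
      rw [ord_div v hy0 (pow_ne_zero _ hc), ord_pow, hcv', hk]; ring
    refine ⟨c, hc, h1, ?_⟩
    rw [hd]
    simp only [mul_zero, Nat.cast_zero, neg_zero, WithZero.exp_zero]
    refine (Valuation.map_sub _ _ _).trans ?_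
    rw [h1, map_one]; simp
  · refine ⟨c₀, hc₀, ?_, hval⟩
    have hlt : v.valuation K (y / c₀ ^ p - 1) < 1 := by
      refine lt_of_le_of_lt hval ?_
      apply exp_neg_natCast_lt_one
      exact Nat.mul_pos (Fact.out : p.Prime).pos hd
    have := Valuation.map_one_add_of_lt _ hlt
    rwa [add_sub_cancel] at this

/-- **KR2**.
Proof.  `v = below w`, `e = ram w`, `d = dz ζ v`, `D = ord_w (ζ - 1) = e d`.
(0) There is `c₀ ≠ 0` with `y' = y / c₀ ^ p`, `ord_v y' = 0`, `ord_v (y' - 1) ≥ p d` (if `d ≥ 1` this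
is `LocPow`; if `d = 0` take `ord_v c₀ = ord_v y / p` by `exists_ord_eq`).  `y' ≠ 1`.
`B' = B / c₀` (`IsKummer.scale`).
(1) `ord_w (B' - 1) ≥ D`: otherwise all `ord_w (B' - ζ^i) = ord_w (B' - 1) < D` and
`∑ = ord_w (y' - 1) = e ord_v (y' - 1) ≥ p D` is contradicted (`prod_B_sub`, `c = 1`).
(2) `θ = (B' - 1) / (ζ - 1)` is `w`-integral.  If `resdeg = 1` there is a `v`-integral `r : K` with
`w (θ - r) < 1` (`exists_sub_valuation_lt_one_of_resdeg_eq_one`).  `c' = 1 + (ζ - 1) r`.  Then
`ord_w (B' - c') > D` and `ord_w (B' - ζ^i c') ≥ D` for all `i`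
(`B' - ζ^i c' = (B' - c') - (ζ^i - 1) c'`), so by `prod_B_sub` `e ord_v (y' - c'^p) > p D = e p d`,
i.e. `ord_v (y' - c'^p) ≥ p d + 1`.
(3) `ord_v y' = 0` forces `ord_v c' = 0`; so `y / (c₀ c')^p - 1` has `ord_v ≥ p d + 1`: `SplitAt`. -/
theorem resdeg_ne_one_of_not_splitAt (h : IsKummer p ζ y B τ) (w : Pl M)
    (hu : UnramAt p ζ y (below K w)) (hs : ¬ SplitAt p ζ y (below K w)) : resdeg K w ≠ 1 := by
  intro hres
  apply hs
  obtain ⟨c₀, hc₀, hy1, hval⟩ := h.kr_exists_normalise (below K w) hu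
  have h' := h.scale hc₀
  set v := below K w with hv
  set y' := y / c₀ ^ p with hy'
  set B' := B / algebraMap K M c₀ with hB'
  set z := algebraMap K M ζ with hz
  set e := ram K w with he
  set d := dz ζ v with hd
  have hp0 : 0 < p := (Fact.out : p.Prime).pos
  have he0 : e ≠ 0 := (ram_pos (K := K) w).ne'
  set ED : WithZero (Multiplicative ℤ) := WithZero.exp (-((e : ℤ) * (d : ℤ))) with hED
  have hED0 : 0 < ED := WithZero.exp_pos
  have hz1 : w.valuation M (z - 1) = ED := h.kr_val_map_zeta_sub_one w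
  have hzi : ∀ i : ℕ, w.valuation M (z ^ i - 1) ≤ ED := fun i =>
    (h.kr_val_map_zeta_pow_sub_one_le w i).trans hz1.le
  have hEDp : ED ^ p = (WithZero.exp (-((p * d : ℕ) : ℤ))) ^ e := by
    rw [hED, kr_exp_pow, kr_exp_pow, WithZero.exp_inj]; push_cast; ring
  -- (1)
  have step1 : w.valuation M (B' - 1) ≤ ED := by
    by_contra hcon
    push Not at hcon
    have hall : ∀ i ∈ range p, w.valuation M (B' - algebraMap K M (ζ ^ i * 1))
        = w.valuation M (B' - 1) := by
      intro i _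
      have : B' - algebraMap K M (ζ ^ i * 1) = (B' - 1) - (z ^ i - 1) := by
        simp only [mul_one, map_pow]; ring
      rw [this]
      exact Valuation.map_sub_eq_of_lt_left _ (lt_of_le_of_lt (hzi i) hcon)
    have hprod := congrArg (w.valuation M) (h'.prod_B_sub 1)
    rw [map_prod, Finset.prod_congr rfl hall, Finset.prod_const, card_range, one_pow,
      valuation_algebraMap] at hprod
    have h1 : ED ^ p < w.valuation M (B' - 1) ^ p := pow_lt_pow_left₀ hcon hED0.le hp0.ne'
    have h2 : (v.valuation K (y' - 1)) ^ e ≤ ED ^ p := by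
      rw [hEDp]; exact pow_le_pow_left₀ zero_le hval e
    rw [hprod] at h1
    exact absurd h2 (not_le.2 h1)
  -- (2)
  have hz10 : z - 1 ≠ 0 := h.kr_map_zeta_sub_one_ne_zero
  set θ := (B' - 1) / (z - 1) with hθ
  have hθ1 : w.valuation M θ ≤ 1 := by
    rw [hθ, map_div₀, hz1]
    exact div_le_one_of_le₀ step1 zero_le
  obtain ⟨r, hr1, hr2⟩ := exists_sub_valuation_lt_one_of_resdeg_eq_one hres hθ1
  set c' : K := 1 + (ζ - 1) * r with hc'
  have hζ1 : v.valuation K (ζ - 1) ≤ 1 := by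
    have h0 : ζ - 1 ≠ 0 := sub_ne_zero.2 h.kr_zeta_ne_one
    have := (le_ord_iff_valuation_le v h0 0).1 (ord_zeta_sub_one_nonneg h.prim v)
    simpa using this
  have hc'1 : v.valuation K c' ≤ 1 := by
    rw [hc']
    refine (Valuation.map_add _ _ _).trans (max_le (by simp) ?_)
    rw [map_mul]
    exact mul_le_one' hζ1 hr1
  have hc'M : w.valuation M (algebraMap K M c') ≤ 1 := by
    rw [valuation_algebraMap]; exact pow_le_one₀ zero_le hc'1
  have hB0 : w.valuation M (B' - algebraMap K M c') < ED := by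
    have : B' - algebraMap K M c' = (z - 1) * (θ - algebraMap K M r) := by
      rw [hθ, hc']; simp only [map_add, map_one, map_mul, map_sub]
      field_simp
      ring
    rw [this, map_mul, hz1]
    calc ED * w.valuation M (θ - algebraMap K M r) < ED * 1 :=
          mul_lt_mul_of_pos_left hr2 hED0
      _ = ED := mul_one _
  have hBi : ∀ i ∈ range p, w.valuation M (B' - algebraMap K M (ζ ^ i * c')) ≤ ED := by
    intro i _
    have : B' - algebraMap K M (ζ ^ i * c')
        = (B' - algebraMap K M c') - (z ^ i - 1) * algebraMap K M c' := by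
      simp only [map_mul, map_pow]; ring
    rw [this]
    refine (Valuation.map_sub _ _ _).trans (max_le hB0.le ?_)
    rw [map_mul]
    calc w.valuation M (z ^ i - 1) * w.valuation M (algebraMap K M c') ≤ ED * 1 := by
          gcongr
          exact hzi i
      _ = ED := mul_one _
  have hlt : (v.valuation K (y' - c' ^ p)) ^ e < (WithZero.exp (-((p * d : ℕ) : ℤ))) ^ e := by
    have hprod := congrArg (w.valuation M) (h'.prod_B_sub c')
    rw [map_prod, valuation_algebraMap] at hprod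
    rw [← hprod, ← hEDp]
    have := kr_prod_lt_pow (range p) (fun i => w.valuation M (B' - algebraMap K M (ζ ^ i * c')))
      hED0 hBi (i₀ := 0) (by simpa using hp0) (by simpa using hB0)
    simpa using this
  have hlt' : v.valuation K (y' - c' ^ p) < WithZero.exp (-((p * d : ℕ) : ℤ)) :=
    lt_of_pow_lt_pow_left₀ e zero_le hlt
  have hle : v.valuation K (y' - c' ^ p) ≤ WithZero.exp (-((p * d + 1 : ℕ) : ℤ)) := by
    have := (kr_lt_exp_iff _ _).1 hlt'
    refine this.trans (le_of_eq ?_)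
    rw [WithZero.exp_inj]; push_cast; ring
  -- (3)
  have hlt1 : v.valuation K (y' - c' ^ p) < 1 :=
    lt_of_lt_of_le hlt' (exp_neg_natCast_le_one _)
  have hcp1 : v.valuation K (c' ^ p) = 1 := by
    have h1 : v.valuation K (c' ^ p - y') < v.valuation K y' := by
      rw [hy1, ← Valuation.map_neg, neg_sub]; exact hlt1
    have := Valuation.map_add_eq_of_lt_left _ h1
    rw [add_sub_cancel] at this
    rw [this, hy1]
  have hc'0 : c' ≠ 0 := by
    intro h0
    rw [h0, zero_pow hp0.ne', map_zero] at hcp1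
    exact zero_ne_one hcp1
  refine ⟨c₀ * c', mul_ne_zero hc₀ hc'0, ?_⟩
  have : y / (c₀ * c') ^ p - 1 = (y' - c' ^ p) / c' ^ p := by
    rw [hy', mul_pow]; field_simp
  rw [this, map_div₀, hcp1, div_one]
  exact hle

end IsKummer

end Fermat.Agent.S14
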