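import Fermat.Agent.S14.KummerLocal.Defs
import Fermat.Agent.S14.KummerPlaces

set_option autoImplicit false

namespace Fermat.Agent.S14

open IsDedekindDomain NumberField Finset

variable {p : ℕ} [Fact p.Prime] {K M : Type*} [Field K] [NumberField K] [Field M] [NumberField M]
  [Algebra K M] {ζ y : K} {B : M} {τ : M ≃ₐ[K] M}

namespace IsKummer

/-- **KR3**.  `p ord_w B = ord_w y = e ord_v y`; if `e = 1` then `p ∣ ord_v y`. -/
theorem ram_ne_one_of_not_dvd (h : IsKummer p ζ y B τ) (w : Pl M)
    (hr : ¬ (p : ℤ) ∣ ord (below K w) y) : ram K w ≠ 1 := by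
  intro he
  apply hr
  have h1 : ord w (algebraMap K M y) = ram K w * ord (below K w) y := ord_algebraMap w y
  rw [← h.B_pow, ord_pow, he] at h1
  refine ⟨ord w B, ?_⟩
  simpa using h1.symm

end IsKummer

end Fermat.Agent.S14
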