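import Fermat.Agent.S14.Approx

set_option autoImplicit false
set_option linter.unusedSectionVars false

/-!
# S14 / KR: local behaviour of the places of `K` in a Kummer extension `M = K(y^{1/p})`

`d = ord_v (ζ - 1)` (`= 0` unless `v ∣ p`).
* KR1: `y` is a `p`-th power mod `v ^ (p d + 1)`  ⟹  `v` splits (`τ w ≠ w`).
* KR2: `p ∣ ord_v y`, `y` is a `p`-th power mod `v ^ (p d)` but not mod `v ^ (p d + 1)` ⟹ inert.
* KR3: `p ∤ ord_v y` ⟹ totally ramified; norms are `y ^ k * (local p-th power)`.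

All proofs are valuation computations with `∏ (B' - ζ^i c) = y' - c^p`.
-/

namespace Fermat.Agent.S14

open IsDedekindDomain NumberField Finset

section defs

variable {K : Type*} [Field K] [NumberField K]

/-- `d_v = ord_v (ζ - 1)`. -/
noncomputable def dz (ζ : K) (v : Pl K) : ℕ := (ord v (ζ - 1)).toNat

/-- `v` splits in `K(y^{1/p})`. -/
def SplitAt (p : ℕ) (ζ y : K) (v : Pl K) : Prop := LocPow p v (p * dz ζ v + 1) y

/-- `v` is unramified in `K(y^{1/p})`. -/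
def UnramAt (p : ℕ) (ζ y : K) (v : Pl K) : Prop :=
  (p : ℤ) ∣ ord v y ∧ LocPow p v (p * dz ζ v) y

variable {p : ℕ} [Fact p.Prime] {ζ : K}

/-- the root of unity as an algebraic integer -/
private lemma exists_integer_zeta (hζ : IsPrimitiveRoot ζ p) :
    ∃ z : 𝓞 K, (z : K) = ζ ∧ IsPrimitiveRoot z p := by
  have hp : 0 < p := (Fact.out : p.Prime).pos
  refine ⟨⟨ζ, hζ.isIntegral hp⟩, rfl, ?_⟩
  exact IsPrimitiveRoot.of_map_of_injective (f := algebraMap (𝓞 K) K) hζ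
    (RingOfIntegers.coe_injective)

private lemma ord_eq_of_associated (v : Pl K) {a b : 𝓞 K} (h : Associated a b) :
    ord v (a : K) = ord v (b : K) := by
  obtain ⟨u, rfl⟩ := h
  by_cases ha : a = 0
  · simp [ha]
  · have ha' : (a : K) ≠ 0 := by simpa using ha
    have hu' : ((u : 𝓞 K) : K) ≠ 0 := by
      have : (u : 𝓞 K) ≠ 0 := u.ne_zero
      simp
    have hmul : ((a * (u : 𝓞 K) : 𝓞 K) : K) = (a : K) * ((u : 𝓞 K) : K) := by push_cast; rfl
    rw [hmul, ord_mul v ha' hu', ord_unit, add_zero]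

lemma ord_zeta_sub_one_nonneg (hζ : IsPrimitiveRoot ζ p) (v : Pl K) : 0 ≤ ord v (ζ - 1) := by
  obtain ⟨z, hz, -⟩ := exists_integer_zeta hζ
  have := ord_nonneg_of_integer v (z - 1)
  simpa [hz] using this

lemma dz_eq (hζ : IsPrimitiveRoot ζ p) (v : Pl K) : (dz ζ v : ℤ) = ord v (ζ - 1) :=
  Int.toNat_of_nonneg (ord_zeta_sub_one_nonneg hζ v)

lemma dz_eq_zero (hζ : IsPrimitiveRoot ζ p) {v : Pl K} (hv : ¬ Above p v) : dz ζ v = 0 := by
  have hp : p.Prime := Fact.out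
  obtain ⟨z, hz, hzp⟩ := exists_integer_zeta hζ
  have hne : z - 1 ≠ 0 := sub_ne_zero.2 (hzp.ne_one hp.one_lt)
  have hnot : ¬ 0 < ord v ((z - 1 : 𝓞 K) : K) := by
    rw [ord_pos_iff_mem v hne]
    intro hmem
    exact hv (Ideal.mem_of_dvd _ (hzp.sub_one_dvd_natCast hp.one_lt) hmem)
  have h0 : ord v (ζ - 1) ≤ 0 := by
    have : ((z - 1 : 𝓞 K) : K) = ζ - 1 := by simp [hz]
    rw [this] at hnot
    exact not_lt.1 hnot
  unfold dz
  exact Int.toNat_eq_zero.2 h0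

/-- `ord_v (ζ^i - ζ^j) = ord_v (ζ - 1)` for `i ≢ j mod p`. -/
lemma ord_zeta_pow_sub_zeta_pow (hζ : IsPrimitiveRoot ζ p) (v : Pl K) {i j : ℕ}
    (hij : ¬ i ≡ j [MOD p]) : ord v (ζ ^ i - ζ ^ j) = ord v (ζ - 1) := by
  have hp : p.Prime := Fact.out
  obtain ⟨z, hz, hzp⟩ := exists_integer_zeta hζ
  have hmem : ∀ k : ℕ, z ^ k ∈ Polynomial.nthRootsFinset p (1 : 𝓞 K) := fun k => by
    rw [Polynomial.mem_nthRootsFinset hp.pos, ← pow_mul, mul_comm, pow_mul, hzp.pow_eq_one, one_pow]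
  have hne : z ^ i ≠ z ^ j := by
    intro h
    have e : orderOf z = p := hzp.eq_orderOf.symm
    have h1 : z ^ (i % p) = z ^ (j % p) := by
      rw [← e, pow_mod_orderOf, pow_mod_orderOf, h]
    exact hij (hzp.pow_inj (Nat.mod_lt _ hp.pos) (Nat.mod_lt _ hp.pos) h1)
  have h := hzp.nthRootsFinset_pairwise_associated_sub_one_sub_of_prime hp (hmem i) (hmem j) hne
  have := ord_eq_of_associated v h
  simpa [hz] using this.symm

lemma ord_zeta (hζ : IsPrimitiveRoot ζ p) (v : Pl K) : ord v ζ = 0 := by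
  have hp : p.Prime := Fact.out
  have h := ord_pow v ζ p
  rw [hζ.pow_eq_one, ord_one] at h
  have hp0 : (p : ℤ) ≠ 0 := by exact_mod_cast hp.ne_zero
  rcases mul_eq_zero.1 h.symm with h | h
  · exact absurd h hp0
  · exact h

lemma splitAt_iff_of_not_above (hζ : IsPrimitiveRoot ζ p) {v : Pl K} (hv : ¬ Above p v) (y : K) :
    SplitAt p ζ y v ↔ LocPow p v 1 y := by
  unfold SplitAt
  rw [dz_eq_zero hζ hv, Nat.mul_zero, Nat.zero_add]

lemma unramAt_iff_of_not_above (hζ : IsPrimitiveRoot ζ p) {v : Pl K} (hv : ¬ Above p v) {y : K}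
    (hy : y ≠ 0) : UnramAt p ζ y v ↔ (p : ℤ) ∣ ord v y := by
  unfold UnramAt
  rw [dz_eq_zero hζ hv]
  refine ⟨fun h => h.1, fun h => ⟨h, ?_⟩⟩
  obtain ⟨k, hk⟩ := h
  obtain ⟨c, hc0, hc⟩ := exists_ord_eq {v} (fun _ => k)
  have hcv : ord v c = k := hc v (Finset.mem_singleton_self v)
  refine ⟨c, hc0, ?_⟩
  have hcp : c ^ p ≠ 0 := pow_ne_zero _ hc0
  have h0 : ord v (y / c ^ p) = 0 := by
    rw [ord_div v hy hcp, ord_pow, hcv, hk]; ring
  have h1 : v.valuation K (y / c ^ p) = 1 :=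
    Approx.valuation_eq_one_of_ord v (div_ne_zero hy hcp) h0
  have h2 : v.valuation K (y / c ^ p - 1) ≤ max (v.valuation K (y / c ^ p)) (v.valuation K 1) :=
    Valuation.map_sub _ _ _
  simpa [h1] using h2

lemma SplitAt.unramAt {y : K} {v : Pl K} (h : SplitAt p ζ y v) : UnramAt p ζ y v :=
  ⟨LocPow.dvd_ord (Nat.le_add_left 1 _) h, LocPow.mono (Nat.le_succ _) h⟩

end defs

end Fermat.Agent.S14
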